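/-
S56, wall W4, seat B (helper89), part 1: `p`-adic numbers modulo `p`-th powers.  Mathlib only
(+ the statement of `so_padic_units_mod_pow`).

* `cbp_hensel`         : `1 + p² a` is a `p`-th power in `ℤ_p` (`p` odd);
* `cbp_exists_rat`     : every `x ∈ ℚ_p^×` is a nonzero rational number times a `p`-th power;
* `cbp_units_mod_pow`  : the classes modulo `p`-th powers of the `x ∈ ℚ_p^×` with `p ∣ v(x)` are at
                         most `p`  (from `#(ℚ_p^× / p) ≤ p²` and the valuation modulo `p`).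
-/
import Mathlib
import Fermat.Agent.S56.W3.SO.PadicPow

set_option autoImplicit false

namespace Fermat.Agent.S56.W4

open Polynomial

/-- Binomial expansion up to order three. -/
lemma cbp_expand {R : Type*} [CommRing R] (t : R) (n : ℕ) :
    ∃ r : R, (1 + t) ^ n = 1 + n * t + (n.choose 2 : R) * t ^ 2 + t ^ 3 * r := by
  induction n with
  | zero => exact ⟨0, by simp⟩
  | succ n ih =>
    obtain ⟨r, hr⟩ := ih
    refine ⟨(n.choose 2 : R) + r + t * r, ?_⟩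
    have hc : (((n + 1).choose 2 : ℕ) : R) = (n : R) + (n.choose 2 : R) := by
      have : (n + 1).choose 2 = n + n.choose 2 := by
        rw [Nat.choose_succ_succ' n 1, Nat.choose_one_right]
      rw [this]; push_cast; ring
    rw [pow_succ, hr, hc]; push_cast; ring

/-- Elements of `1 + p² ℤ_p` are `p`-th powers (`p` odd). -/
lemma cbp_hensel (p : ℕ) [Fact p.Prime] (hp2 : p ≠ 2) (a : ℤ_[p]) :
    ∃ Z : ℤ_[p], Z ^ p = 1 + (p : ℤ_[p]) ^ 2 * a := by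
  have hp : p.Prime := Fact.out
  have hp3 : 2 < p := lt_of_le_of_ne hp.two_le (Ne.symm hp2)
  obtain ⟨m, hm⟩ : p ∣ p.choose 2 := hp.dvd_choose_self (by norm_num) hp3
  obtain ⟨r, hr⟩ := cbp_expand ((p : ℤ_[p]) * a) p
  set W : ℤ_[p] := 1 + (p : ℤ_[p]) ^ 2 * a with hW
  set x₀ : ℤ_[p] := 1 + (p : ℤ_[p]) * a with hx₀
  have hval : x₀ ^ p - W = (p : ℤ_[p]) ^ 3 * ((m : ℤ_[p]) * a ^ 2 + a ^ 3 * r) := by
    rw [hr, hm, hW]; push_cast; ring
  have hpn : ‖(p : ℤ_[p])‖ = (p : ℝ)⁻¹ := PadicInt.norm_p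
  have hp1 : (1 : ℝ) < p := by exact_mod_cast hp.one_lt
  have hpinv0 : (0 : ℝ) < (p : ℝ)⁻¹ := by positivity
  have hpinv1 : (p : ℝ)⁻¹ < 1 := inv_lt_one_of_one_lt₀ hp1
  have hx₀n : ‖x₀‖ = 1 := by
    have h1 : ‖(p : ℤ_[p]) * a‖ < 1 := by
      rw [norm_mul, hpn]
      calc (p : ℝ)⁻¹ * ‖a‖ ≤ (p : ℝ)⁻¹ * 1 :=
            mul_le_mul_of_nonneg_left (PadicInt.norm_le_one a) hpinv0.le
        _ < 1 := by simpa using hpinv1
    have h2 : ‖(1 : ℤ_[p])‖ ≠ ‖(p : ℤ_[p]) * a‖ := by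
      rw [norm_one]; exact (ne_of_lt h1).symm
    rw [hx₀, PadicInt.norm_add_eq_max_of_ne h2, norm_one]
    exact max_eq_left h1.le
  have hF : aeval x₀ (X ^ p - C W : ℤ_[p][X]) = x₀ ^ p - W := by simp
  have hF' : aeval x₀ (derivative (X ^ p - C W : ℤ_[p][X])) = (p : ℤ_[p]) * x₀ ^ (p - 1) := by
    rw [derivative_sub, derivative_C, sub_zero, derivative_X_pow]
    simp
  obtain ⟨Z, hZ, -⟩ := hensels_lemma (p := p) (R := ℤ_[p]) (F := (X ^ p - C W : ℤ_[p][X]))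
    (a := x₀) (by
      rw [hF, hF', hval, norm_mul, norm_mul, norm_pow, norm_pow,
        hx₀n, hpn, one_pow, mul_one]
      calc (p : ℝ)⁻¹ ^ 3 * ‖(m : ℤ_[p]) * a ^ 2 + a ^ 3 * r‖ ≤ (p : ℝ)⁻¹ ^ 3 * 1 :=
            mul_le_mul_of_nonneg_left (PadicInt.norm_le_one _) (by positivity)
        _ = (p : ℝ)⁻¹ ^ 3 := mul_one _
        _ < (p : ℝ)⁻¹ ^ 2 := pow_lt_pow_right_of_lt_one₀ hpinv0 hpinv1 (by norm_num))
  refine ⟨Z, ?_⟩
  have : Z ^ p - W = 0 := by simpa using hZ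
  exact sub_eq_zero.1 this

/-- Every `x ∈ ℚ_p^×` is a nonzero rational number times a `p`-th power. -/
theorem cbp_exists_rat (p : ℕ) [Fact p.Prime] (hp2 : p ≠ 2) (x : ℚ_[p]ˣ) :
    ∃ (r : ℚ) (z : ℚ_[p]ˣ), r ≠ 0 ∧ (x : ℚ_[p]) = (r : ℚ_[p]) * (z : ℚ_[p]) ^ p := by
  have hp : p.Prime := Fact.out
  have hp1 : (1 : ℝ) < p := by exact_mod_cast hp.one_lt
  have hp0 : (0 : ℝ) < p := by linarith
  have hx0 : (x : ℚ_[p]) ≠ 0 := x.ne_zero
  have hxn : 0 < ‖(x : ℚ_[p])‖ := norm_pos_iff.2 hx0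
  have hε : 0 < ‖(x : ℚ_[p])‖ * ((p : ℝ) ^ 2)⁻¹ := by positivity
  obtain ⟨r, hr⟩ := Padic.rat_dense p (x : ℚ_[p]) hε
  have hlt : ‖(x : ℚ_[p]) - r‖ < ‖(x : ℚ_[p])‖ := by
    refine lt_of_lt_of_le hr ?_
    have h1 : ((p : ℝ) ^ 2)⁻¹ ≤ 1 := by
      rw [inv_le_one₀ (by positivity)]
      nlinarith
    calc ‖(x : ℚ_[p])‖ * ((p : ℝ) ^ 2)⁻¹ ≤ ‖(x : ℚ_[p])‖ * 1 :=
          mul_le_mul_of_nonneg_left h1 hxn.le
      _ = ‖(x : ℚ_[p])‖ := mul_one _
  have hrn : ‖(r : ℚ_[p])‖ = ‖(x : ℚ_[p])‖ := by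
    have h2 : (r : ℚ_[p]) = (x : ℚ_[p]) - ((x : ℚ_[p]) - r) := by ring
    have h3 : ‖(x : ℚ_[p])‖ ≠ ‖-((x : ℚ_[p]) - r)‖ := by
      rw [norm_neg]; exact (ne_of_lt hlt).symm
    rw [h2, sub_eq_add_neg, Padic.add_eq_max_of_ne h3, norm_neg]
    exact max_eq_left hlt.le
  have hr0' : (r : ℚ_[p]) ≠ 0 := by
    intro h0
    rw [h0, norm_zero] at hrn
    exact (ne_of_gt hxn) hrn.symm
  have hr0 : r ≠ 0 := by
    rintro rfl
    exact hr0' (by simp)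
  -- `w = x / r - 1` is divisible by `p²`
  set w : ℚ_[p] := ((x : ℚ_[p]) - r) / r with hw
  have hwn : ‖w / (p : ℚ_[p]) ^ 2‖ ≤ 1 := by
    rw [hw, norm_div, norm_div, norm_pow, Padic.norm_p, hrn]
    rw [div_div, div_le_one (by positivity)]
    have h4 : ‖(x : ℚ_[p])‖ * ((p : ℝ) ^ 2)⁻¹ = ‖(x : ℚ_[p])‖ * ((p : ℝ)⁻¹) ^ 2 := by
      rw [inv_pow]
    rw [← h4]
    exact hr.le
  let a : ℤ_[p] := ⟨w / (p : ℚ_[p]) ^ 2, hwn⟩
  obtain ⟨Z, hZ⟩ := cbp_hensel p hp2 a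
  have hpQ : (p : ℚ_[p]) ≠ 0 := by exact_mod_cast hp.ne_zero
  have hZ' : (Z : ℚ_[p]) ^ p = (x : ℚ_[p]) / r := by
    have h5 : ((Z ^ p : ℤ_[p]) : ℚ_[p]) = ((1 + (p : ℤ_[p]) ^ 2 * a : ℤ_[p]) : ℚ_[p]) := by
      rw [hZ]
    push_cast at h5
    rw [h5]
    show 1 + (p : ℚ_[p]) ^ 2 * (w / (p : ℚ_[p]) ^ 2) = _
    rw [hw]
    field_simp
    ring
  have hZ0 : (Z : ℚ_[p]) ≠ 0 := by
    intro h0
    rw [h0, zero_pow hp.ne_zero] at hZ'
    exact (div_ne_zero hx0 hr0') hZ'.symm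
  refine ⟨r, Units.mk0 _ hZ0, hr0, ?_⟩
  rw [Units.val_mk0, hZ']
  field_simp

/-! ### the classes with valuation divisible by `p` -/

section Count

variable (p : ℕ) [Fact p.Prime]

/-- The valuation modulo `p`, as a homomorphism `ℚ_p^× → ℤ/p`. -/
noncomputable def cbpVal : ℚ_[p]ˣ →* Multiplicative (ZMod p) where
  toFun x := Multiplicative.ofAdd ((((x : ℚ_[p]).valuation : ℤ) : ZMod p))
  map_one' := by
    rw [Units.val_one, Padic.valuation_one, Int.cast_zero]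
    rfl
  map_mul' x y := by
    rw [Units.val_mul, Padic.valuation_mul x.ne_zero y.ne_zero, Int.cast_add, ofAdd_add]

theorem cbpVal_eq_one_iff (x : ℚ_[p]ˣ) :
    cbpVal p x = 1 ↔ (p : ℤ) ∣ (x : ℚ_[p]).valuation := by
  show Multiplicative.ofAdd ((((x : ℚ_[p]).valuation : ℤ) : ZMod p)) = Multiplicative.ofAdd 0 ↔ _
  rw [Multiplicative.ofAdd.injective.eq_iff, ZMod.intCast_zmod_eq_zero_iff_dvd]

/-- The subgroup of `p`-th powers. -/
noncomputable def cbpPow : Subgroup ℚ_[p]ˣ := (powMonoidHom p : ℚ_[p]ˣ →* ℚ_[p]ˣ).range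

theorem mem_cbpPow {x : ℚ_[p]ˣ} : x ∈ cbpPow p ↔ ∃ z : ℚ_[p]ˣ, z ^ p = x := Iff.rfl

theorem cbpPow_le_ker : cbpPow p ≤ (cbpVal p).ker := by
  rintro x ⟨z, rfl⟩
  rw [MonoidHom.mem_ker, powMonoidHom_apply, map_pow]
  have hp : p.Prime := Fact.out
  have : NeZero p := ⟨hp.ne_zero⟩
  have h : ∀ m : Multiplicative (ZMod p), m ^ p = 1 := fun m => by
    show Multiplicative.ofAdd (p • Multiplicative.toAdd m) = Multiplicative.ofAdd 0
    rw [nsmul_eq_mul, CharP.cast_eq_zero, zero_mul]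
  exact h _

/-- **The classes of valuation divisible by `p`** are at most `p`. -/
theorem cbp_units_mod_pow (hp2 : p ≠ 2) :
    ∃ G : ℚ_[p]ˣ → Fin p, ∀ x y : ℚ_[p]ˣ, (p : ℤ) ∣ (x : ℚ_[p]).valuation →
      (p : ℤ) ∣ (y : ℚ_[p]).valuation → G x = G y → ∃ z : ℚ_[p]ˣ, x = y * z ^ p := by
  classical
  have hp : p.Prime := Fact.out
  have : NeZero p := ⟨hp.ne_zero⟩
  obtain ⟨F, hF⟩ := Fermat.Agent.S56.SO.so_padic_units_mod_pow p hp2
  -- the quotient group and its cardinality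
  let Cq := ℚ_[p]ˣ ⧸ cbpPow p
  have hmk : ∀ x y : ℚ_[p]ˣ, (QuotientGroup.mk x : Cq) = QuotientGroup.mk y ↔
      ∃ z : ℚ_[p]ˣ, x = y * z ^ p := by
    intro x y
    rw [QuotientGroup.eq]
    constructor
    · rintro ⟨z, hz⟩
      refine ⟨z⁻¹, ?_⟩
      have hz' : z ^ p = x⁻¹ * y := hz
      rw [inv_pow, hz']
      group
    · rintro ⟨z, rfl⟩
      refine ⟨z⁻¹, ?_⟩
      show (z⁻¹) ^ p = (y * z ^ p)⁻¹ * y
      rw [inv_pow, mul_inv_rev, inv_mul_cancel_right]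
  let Φ : Cq → Fin (p ^ 2) := fun c => F c.out
  have hΦ : Function.Injective Φ := by
    intro c c' h
    have h1 := (hmk _ _).2 (hF _ _ h)
    rwa [QuotientGroup.out_eq', QuotientGroup.out_eq'] at h1
  have : Finite Cq := Finite.of_injective Φ hΦ
  have hcardC : Nat.card Cq ≤ p ^ 2 := by
    have := Nat.card_le_card_of_injective Φ hΦ
    rwa [Nat.card_fin] at this
  -- the valuation on the quotient
  let vb : Cq →* Multiplicative (ZMod p) := QuotientGroup.lift (cbpPow p) (cbpVal p) (cbpPow_le_ker p)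
  have hvb : ∀ x : ℚ_[p]ˣ, vb (QuotientGroup.mk x) = cbpVal p x := fun x => rfl
  have hsurj : Function.Surjective vb := by
    intro m
    have hpQ : (p : ℚ_[p]) ≠ 0 := by exact_mod_cast hp.ne_zero
    refine ⟨QuotientGroup.mk ((Units.mk0 (p : ℚ_[p]) hpQ) ^ (Multiplicative.toAdd m).val), ?_⟩
    rw [hvb, map_pow]
    have h1 : cbpVal p (Units.mk0 (p : ℚ_[p]) hpQ) = Multiplicative.ofAdd 1 := by
      show Multiplicative.ofAdd ((((Units.mk0 (p : ℚ_[p]) hpQ : ℚ_[p]ˣ) : ℚ_[p]).valuation : ℤ) :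
        ZMod p) = _
      rw [Units.val_mk0, Padic.valuation_p, Int.cast_one]
    rw [h1]
    show Multiplicative.ofAdd ((Multiplicative.toAdd m).val • (1 : ZMod p)) = m
    rw [nsmul_eq_mul, mul_one, ZMod.natCast_zmod_val]
    rfl
  have hidx : vb.ker.index = p := by
    rw [Subgroup.index_ker, MonoidHom.range_eq_top.2 hsurj, Subgroup.card_top]
    show Nat.card (ZMod p) = p
    rw [Nat.card_eq_fintype_card, ZMod.card]
  have hcardU : Nat.card vb.ker ≤ p := by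
    have h1 := Subgroup.card_mul_index vb.ker
    rw [hidx] at h1
    have h2 : Nat.card vb.ker * p ≤ p * p := by
      rw [h1, ← sq]
      exact hcardC
    exact Nat.le_of_mul_le_mul_right h2 hp.pos
  let e : vb.ker ≃ Fin (Nat.card vb.ker) := Finite.equivFin _
  let ι : vb.ker → Fin p := fun u => Fin.castLE hcardU (e u)
  have hι : Function.Injective ι := fun u u' h =>
    e.injective (Fin.castLE_injective hcardU h)
  refine ⟨fun x => if h : cbpVal p x = 1 then ι ⟨QuotientGroup.mk x, h⟩ else ⟨0, hp.pos⟩, ?_⟩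
  intro x y hx hy hxy
  have hx1 := (cbpVal_eq_one_iff p x).2 hx
  have hy1 := (cbpVal_eq_one_iff p y).2 hy
  simp only [dif_pos hx1, dif_pos hy1] at hxy
  have h1 := hι hxy
  exact (hmk x y).1 (congrArg Subtype.val h1)

end Count

end Fermat.Agent.S56.W4
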