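/-
S56, wall W4, seat B (helper89), part 2: the Kummer generator of a peu ramifié cocycle has
valuation divisible by `p`.

`Ω = PadicAlgCl p`, `ι = locEmb : ℚ̄ → Ω`, `P₀ = primeLocalPlace (pPrime p)`, `I` its inertia group.
* `cbv_zeta`         : the image `ζ` of a primitive `p`-th root of unity `ζ₀ ∈ ℚ̄`, with the
                       cyclotomic action;
* `cbv_norm_unit`    : `‖ι u‖ = 1` for a unit `u` of `P₀`;
* `cbv_norm_fixed`   : `‖ι c‖ ∈ p^ℤ` for `c ≠ 0` fixed by `I`   (`Lib/FFL`: `unrProp`, `dvdProp`,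
                       `exists_eq_pow_mul_unit`);
* `cbv_root_range`   : a `p`-th root in `Ω` of a nonzero rational number lies in `ι(ℚ̄)`;
* `cbv_dvd_valuation`: the statement.
-/
import Fermat.Agent.S56.W3.SO.KummerFp
import Fermat.Agent.S56.W3.SO.Place
import Fermat.Agent.S56.W3.Tame
import Fermat.Agent.Lib.FFL.Base
import Fermat.Agent.Lib.FFL.Unr
import Fermat.Agent.Lib.FFL.Arith
import Fermat.Agent.S56.W4.CountB.Padic

set_option autoImplicit false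

namespace Fermat.Agent.S56.W4

open Fermat.Agent.F4 Fermat.Agent.F4.Loc ExtCitation Fermat.Agent.S56.SO

variable (p : ℕ) [Fact p.Prime]

/-- Peu ramifié, for an `𝔽_p`-valued function on the local Galois group. -/
def CbPeu (ζ₀ : AlgebraicClosure ℚ) (g : Gp p → ZMod p) : Prop :=
  ∃ a : AlgebraicClosure ℚ,
    a ∈ primeLocalPlace (pPrime p) ∧ a⁻¹ ∈ primeLocalPlace (pPrime p) ∧ a ≠ 0 ∧
    ∀ γ ∈ locInertia (pPrime p), locp p γ a = ζ₀ ^ (g γ).val * a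

/-- The image in `Ω` of a primitive `p`-th root of unity of `ℚ̄`. -/
theorem cbv_zeta {ζ₀ : AlgebraicClosure ℚ} (hζ₀ : IsPrimitiveRoot ζ₀ p) :
    ∃ ζ : (PadicAlgCl ((pPrime p : Nat.Primes) : ℕ))ˣ,
      (ζ : PadicAlgCl ((pPrime p : Nat.Primes) : ℕ)) = locEmb (pPrime p) ζ₀ ∧
      IsPrimitiveRoot ζ p ∧ ∀ γ : Gp p, γ • ζ = ζ ^ (cycLoc p γ).val := by
  have hp0 : p ≠ 0 := (Fact.out : p.Prime).ne_zero
  have : NeZero p := ⟨hp0⟩
  have hζ : IsPrimitiveRoot (locEmb (pPrime p) ζ₀) p :=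
    hζ₀.map_of_injective (locEmb_injective (pPrime p))
  refine ⟨(hζ.isUnit hp0).unit, rfl, IsPrimitiveRoot.coe_units_iff.1 hζ, fun γ => Units.ext ?_⟩
  rw [primeLocal_smul_units, Units.val_pow_eq_pow_val]
  show locAct (pPrime p) γ (locEmb (pPrime p) ζ₀) = (locEmb (pPrime p) ζ₀) ^ (cycLoc p γ).val
  rw [← locEmb_primeLocalToGlobal, ← map_pow]
  exact congrArg (locEmb (pPrime p)) (cycLoc_spec p γ ζ₀ hζ₀.pow_eq_one)

/-- Membership in `P₀` in terms of the norm of `Ω`. -/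
theorem cbv_mem_iff (x : AlgebraicClosure ℚ) :
    x ∈ primeLocalPlace (pPrime p) ↔ ‖locEmb (pPrime p) x‖ ≤ 1 := by
  show x ∈ padicPlace p ↔ ‖padicEmbedding p x‖ ≤ 1
  rw [mem_padicPlace_iff]
  exact Iff.rfl

/-- A unit of `P₀` has norm one. -/
theorem cbv_norm_unit {u : AlgebraicClosure ℚ} (hu : u ∈ primeLocalPlace (pPrime p))
    (hu' : u⁻¹ ∈ primeLocalPlace (pPrime p)) (hu0 : u ≠ 0) : ‖locEmb (pPrime p) u‖ = 1 := by
  have h1 := (cbv_mem_iff p u).1 hu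
  have h2 := (cbv_mem_iff p u⁻¹).1 hu'
  rw [map_inv₀, norm_inv] at h2
  have h0 : 0 < ‖locEmb (pPrime p) u‖ :=
    norm_pos_iff.2 ((map_ne_zero (locEmb (pPrime p))).2 hu0)
  have h3 : 1 ≤ ‖locEmb (pPrime p) u‖ := by
    rw [inv_le_one₀ h0] at h2
    exact h2
  exact le_antisymm h1 h3

/-- The norm of the image of a nonzero inertia-fixed element of `ℚ̄` is a power of `p`. -/
theorem cbv_norm_fixed {c : AlgebraicClosure ℚ} (hc0 : c ≠ 0)
    (hfix : ∀ σ ∈ (primeLocalPlace (pPrime p)).inertiaSubgroupIn ℚ, σ c = c) :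
    ∃ n : ℤ, ‖locEmb (pPrime p) c‖ = (p : ℝ) ^ n := by
  have hp : p.Prime := Fact.out
  have hP := so_liesOver p
  have hnp : ‖locEmb (pPrime p) ((p : ℕ) : AlgebraicClosure ℚ)‖ = ((p : ℝ))⁻¹ := by
    rw [map_natCast]
    exact so_norm_natCast_self p
  have key : ∀ x : AlgebraicClosure ℚ, x ≠ 0 →
      x ∈ FFL.inertiaRing (primeLocalPlace (pPrime p)) →
      ∃ n : ℕ, ‖locEmb (pPrime p) x‖ = ((p : ℝ))⁻¹ ^ n := by
    intro x hx0 hx
    obtain ⟨n, u, hu, hu', hxu⟩ := FFL.exists_eq_pow_mul_unit hp.ne_zero hP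
      (FFL.unrProp p hp _ hP) (FFL.dvdProp hp hP) hx hx0
    have hu0 : u ≠ 0 := by
      rintro rfl
      rw [mul_zero] at hxu
      exact hx0 hxu
    refine ⟨n, ?_⟩
    rw [hxu, map_mul, map_pow, norm_mul, norm_pow, cbv_norm_unit p hu.1 hu'.1 hu0, mul_one, hnp]
  rcases (primeLocalPlace (pPrime p)).mem_or_inv_mem c with h | h
  · obtain ⟨n, hn⟩ := key c hc0 ⟨h, hfix⟩
    exact ⟨-(n : ℤ), by rw [hn, inv_pow, zpow_neg, zpow_natCast]⟩
  · obtain ⟨n, hn⟩ := key c⁻¹ (inv_ne_zero hc0)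
      ⟨h, fun σ hσ => by rw [map_inv₀, hfix σ hσ]⟩
    rw [map_inv₀, norm_inv, inv_pow, inv_inj] at hn
    exact ⟨(n : ℤ), by rw [zpow_natCast, hn]⟩

/-- A `p`-th root in `Ω` of a nonzero rational number is in the image of `ℚ̄`. -/
theorem cbv_root_range {ζ₀ : AlgebraicClosure ℚ} (hζ₀ : IsPrimitiveRoot ζ₀ p)
    {b₀ : PadicAlgCl ((pPrime p : Nat.Primes) : ℕ)} {r : ℚ} (hr : r ≠ 0)
    (h : b₀ ^ p = (r : PadicAlgCl ((pPrime p : Nat.Primes) : ℕ))) :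
    ∃ β : AlgebraicClosure ℚ, locEmb (pPrime p) β = b₀ := by
  have hp : p.Prime := Fact.out
  have : NeZero p := ⟨hp.ne_zero⟩
  obtain ⟨β₁, hβ₁⟩ := IsAlgClosed.exists_pow_nat_eq (r : AlgebraicClosure ℚ) hp.pos
  have hβ₁0 : β₁ ≠ 0 := by
    rintro rfl
    rw [zero_pow hp.ne_zero] at hβ₁
    exact hr (by exact_mod_cast hβ₁.symm)
  have hι0 : locEmb (pPrime p) β₁ ≠ 0 := (map_ne_zero _).2 hβ₁0
  have hr0 : (r : PadicAlgCl ((pPrime p : Nat.Primes) : ℕ)) ≠ 0 := by exact_mod_cast hr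
  have h1 : (b₀ / locEmb (pPrime p) β₁) ^ p = 1 := by
    rw [div_pow, ← map_pow, hβ₁, map_ratCast, h, div_self hr0]
  have hζ : IsPrimitiveRoot (locEmb (pPrime p) ζ₀) p :=
    hζ₀.map_of_injective (locEmb_injective (pPrime p))
  obtain ⟨j, -, hj⟩ := hζ.eq_pow_of_pow_eq_one h1
  refine ⟨ζ₀ ^ j * β₁, ?_⟩
  rw [map_mul, map_pow, hj, div_mul_cancel₀ _ hι0]

/-- **The Kummer generator of a peu ramifié cocycle has valuation divisible by `p`.** -/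
theorem cbv_dvd_valuation (hp2 : p ≠ 2) {ζ₀ : AlgebraicClosure ℚ} (hζ₀ : IsPrimitiveRoot ζ₀ p)
    {ζ : (PadicAlgCl ((pPrime p : Nat.Primes) : ℕ))ˣ}
    (hζι : (ζ : PadicAlgCl ((pPrime p : Nat.Primes) : ℕ)) = locEmb (pPrime p) ζ₀)
    {g : Gp p → ZMod p} (hg : CbPeu p ζ₀ g)
    {b : (PadicAlgCl ((pPrime p : Nat.Primes) : ℕ))ˣ} {x : ℚ_[((pPrime p : Nat.Primes) : ℕ)]ˣ}
    (hb : ∀ γ : Gp p, γ • b / b = kfpE ζ (g γ))
    (hx : algebraMap ℚ_[((pPrime p : Nat.Primes) : ℕ)] (PadicAlgCl ((pPrime p : Nat.Primes) : ℕ))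
          (x : ℚ_[((pPrime p : Nat.Primes) : ℕ)])
          = ((b ^ p : (PadicAlgCl ((pPrime p : Nat.Primes) : ℕ))ˣ) :
              PadicAlgCl ((pPrime p : Nat.Primes) : ℕ))) :
    (p : ℤ) ∣ (x : ℚ_[((pPrime p : Nat.Primes) : ℕ)]).valuation := by
  have hp : p.Prime := Fact.out
  have hp1 : (1 : ℝ) < p := by exact_mod_cast hp.one_lt
  have hp0 : (0 : ℝ) < p := by exact_mod_cast hp.pos
  obtain ⟨r, z, hr, hxz⟩ : ∃ (r : ℚ) (z : ℚ_[((pPrime p : Nat.Primes) : ℕ)]ˣ), r ≠ 0 ∧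
      (x : ℚ_[((pPrime p : Nat.Primes) : ℕ)]) = (r : ℚ_[((pPrime p : Nat.Primes) : ℕ)]) *
        (z : ℚ_[((pPrime p : Nat.Primes) : ℕ)]) ^ p := cbp_exists_rat p hp2 x
  set zΩ : PadicAlgCl ((pPrime p : Nat.Primes) : ℕ) :=
    algebraMap ℚ_[((pPrime p : Nat.Primes) : ℕ)] (PadicAlgCl ((pPrime p : Nat.Primes) : ℕ))
      (z : ℚ_[((pPrime p : Nat.Primes) : ℕ)]) with hzΩ
  have hzΩ0 : zΩ ≠ 0 := (map_ne_zero _).2 z.ne_zero
  -- the `p`-th root of `r`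
  have hb₀ : ((b : PadicAlgCl ((pPrime p : Nat.Primes) : ℕ)) / zΩ) ^ p
      = (r : PadicAlgCl ((pPrime p : Nat.Primes) : ℕ)) := by
    rw [div_pow, ← Units.val_pow_eq_pow_val, ← hx, hxz, map_mul, map_pow, map_ratCast,
      mul_div_assoc, div_self (pow_ne_zero _ hzΩ0), mul_one]
  obtain ⟨β, hβ⟩ := cbv_root_range p hζ₀ hr hb₀
  have hβ0 : β ≠ 0 := by
    rintro rfl
    rw [map_zero] at hβ
    exact (div_ne_zero b.ne_zero hzΩ0) hβ.symm
  have hζ₀0 : ζ₀ ≠ 0 := hζ₀.ne_zero hp.ne_zero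
  -- the action on `β`
  have hact : ∀ γ : Gp p, locp p γ β = ζ₀ ^ (g γ).val * β := by
    intro γ
    apply locEmb_injective (pPrime p)
    rw [locEmb_primeLocalToGlobal, hβ, map_mul, map_pow, hβ, ← hζι, map_div₀]
    have e1 : locAct (pPrime p) γ zΩ = zΩ :=
      AlgEquiv.commutes (show PadicAlgCl ((pPrime p : Nat.Primes) : ℕ)
        ≃ₐ[ℚ_[((pPrime p : Nat.Primes) : ℕ)]] PadicAlgCl ((pPrime p : Nat.Primes) : ℕ) from γ) _
    have e2 : γ • b = kfpE ζ (g γ) * b := by rw [← hb γ, div_mul_cancel]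
    have e3 : locAct (pPrime p) γ (b : PadicAlgCl ((pPrime p : Nat.Primes) : ℕ))
        = (ζ : PadicAlgCl ((pPrime p : Nat.Primes) : ℕ)) ^ (g γ).val *
          (b : PadicAlgCl ((pPrime p : Nat.Primes) : ℕ)) := by
      rw [← primeLocal_smul_units, e2, Units.val_mul]
      rfl
    rw [e1, e3, mul_div_assoc]
  -- the quotient by the unit of `P₀`
  obtain ⟨a, ha, ha', ha0, haI⟩ := hg
  have hfix : ∀ σ ∈ (primeLocalPlace (pPrime p)).inertiaSubgroupIn ℚ, σ (β / a) = β / a := by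
    intro σ hσ
    obtain ⟨τ, hτ, rfl⟩ := exists_of_mem_inertia (pPrime p) hσ
    have h1 := hact τ
    have h2 := haI τ hτ
    rw [map_div₀]
    show locp p τ β / locp p τ a = β / a
    rw [h1, h2, mul_div_mul_left _ _ (pow_ne_zero _ hζ₀0)]
  obtain ⟨n, hn⟩ := cbv_norm_fixed p (div_ne_zero hβ0 ha0) hfix
  have hnβ : ‖locEmb (pPrime p) β‖ = (p : ℝ) ^ n := by
    rw [map_div₀, norm_div, cbv_norm_unit p ha ha' ha0, div_one] at hn
    exact hn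
  -- norms
  have hr' : (r : ℚ_[((pPrime p : Nat.Primes) : ℕ)]) ≠ 0 := by exact_mod_cast hr
  have hnr : ‖(r : ℚ_[((pPrime p : Nat.Primes) : ℕ)])‖ = ((p : ℝ) ^ n) ^ p := by
    rw [← hnβ, hβ, ← norm_pow, hb₀, ← PadicAlgCl.norm_extends]
    congr 1
  have hvr : (r : ℚ_[((pPrime p : Nat.Primes) : ℕ)]).valuation = -(n * p) := by
    have h1 := Padic.norm_eq_zpow_neg_valuation hr'
    rw [hnr, ← zpow_natCast, ← zpow_mul] at h1
    have h2 := zpow_right_injective₀ hp0 hp1.ne' h1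
    omega
  have hv : (x : ℚ_[((pPrime p : Nat.Primes) : ℕ)]).valuation
      = (r : ℚ_[((pPrime p : Nat.Primes) : ℕ)]).valuation +
        p * (z : ℚ_[((pPrime p : Nat.Primes) : ℕ)]).valuation := by
    rw [hxz, Padic.valuation_mul hr' (pow_ne_zero _ z.ne_zero), Padic.valuation_pow]
  rw [hv, hvr]
  exact ⟨-n + (z : ℚ_[((pPrime p : Nat.Primes) : ℕ)]).valuation, by ring⟩

end Fermat.Agent.S56.W4
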